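import Fermat.Agent.S45.Haupt3.TElem
import Fermat.Agent.S36.Haupt.Main

/-!
# S45 / [MODK-Q2] : `D t₃ / t₃ = - E₃` as Laurent series, and the reduction of `E₃` in characteristic 2

Same shapes as `S36.tSer_eq`, `S36.hSer_eq`, `S36.DL_tSer_mul` (`G4ser ^ 2 ↦ E3ser`), so that
`S36.exists_rot_quot`, `S36.exists_rot_pow` (and their ports to roots of unity of order `q ^ s`)
apply to the pair `(t3Ser, h3Ser)` exactly as to `(tSer, hSer)`.
-/

set_option autoImplicit false
set_option linter.unusedSectionVars false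

open ModularCurve Fermat.Agent.S24 Fermat.Agent.S28 Fermat.Agent.S36

noncomputable section

namespace Fermat.Agent.S45

theorem t3Ser_eq : t3Ser = monS (-1) psi12 := rfl

theorem h3Ser_eq : h3Ser = monS 1 psi12inv := by
  rw [h3Ser, monS, map_mul, HahnSeries.ofPowerSeries_X]

/-- `D t₃ / t₃ = - E₃`. -/
theorem DL_t3Ser_mul : DL t3Ser * h3Ser = - HahnSeries.ofPowerSeries ℤ ℤ E3ser := by
  have h := DL_monS_mul (-1) psi12 psi12inv psi12_mul_inv
  rw [neg_neg] at h
  rw [t3Ser_eq, h3Ser_eq, h, ← map_neg]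
  congr 1
  have h1 := thD_psi12
  have h2 : thD psi12 = psi12 - psi12 * E3ser := by linear_combination h1
  rw [h2, sub_mul, psi12_mul_inv, map_neg, map_one]
  have : psi12 * E3ser * psi12inv = (psi12 * psi12inv) * E3ser := by ring
  rw [this, psi12_mul_inv]
  ring

/-- `E₃ = 1` in characteristic `2` (and `3`). -/
theorem map_E3ser_of_two {k : Type*} [CommRing k] (h2 : (2 : k) = 0) :
    E3ser.map (Int.castRingHom k) = 1 := by
  rw [E3ser, map_add, map_one, map_mul, PowerSeries.map_C]
  have : (Int.castRingHom k) 12 = 0 := by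
    have : ((12 : ℤ) : k) = 2 * 6 := by norm_num
    rw [eq_intCast, this, h2, zero_mul]
  rw [this, map_zero, zero_mul, add_zero]

theorem castLS_E3ser_of_two {k : Type*} [CommRing k] (h2 : (2 : k) = 0) :
    castLS k (HahnSeries.ofPowerSeries ℤ ℤ E3ser) = 1 := by
  have h := coeffMap_ofPowerSeries (Int.castRingHom k) E3ser
  rw [map_E3ser_of_two h2, map_one] at h
  exact h

end Fermat.Agent.S45
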