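import Fermat.Agent.S36.Haupt.Formal

/-!
# S45 / [MODK-Q2] : formal part for `h₃ = (η(3τ)/η(τ))^12 = T ∏ (1-T^{3n})^12/(1-T^n)^12`

`t₃ = 1/h₃`, `ψ = T t₃ = psi12`.  Main result `thD_psi12` : `θ ψ - ψ = - ψ E₃` with
`E₃ = 1 + 12 δ₃`, `δ₃ = ∑ (σ₁(n) - 3 σ₁(n/3)) Tⁿ`, i.e. `D t₃ = - t₃ E₃`, `D h₃ = h₃ E₃`.
No modular identity is needed: `E₃ ≡ 1 mod 2` (even `mod 12`) is visible.
-/

set_option autoImplicit false

open PowerSeries Fermat.Agent.S36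

noncomputable section

namespace Fermat.Agent.S45

/-- `T t₃ = ∏ (1-T^n)^12/(1-T^{3n})^12`. -/
def psi12 : PowerSeries ℤ := eS 1 ^ 12 * (eS 3 ^ 12).invOfUnit 1

/-- `h₃ / T = ∏ (1-T^{3n})^12/(1-T^n)^12`. -/
def psi12inv : PowerSeries ℤ := eS 3 ^ 12 * (eS 1 ^ 12).invOfUnit 1

theorem psi12_mul_inv : psi12 * psi12inv = 1 := by
  unfold psi12 psi12inv
  calc eS 1 ^ 12 * (eS 3 ^ 12).invOfUnit 1 * (eS 3 ^ 12 * (eS 1 ^ 12).invOfUnit 1)
      = (eS 1 ^ 12 * (eS 1 ^ 12).invOfUnit 1) * (eS 3 ^ 12 * (eS 3 ^ 12).invOfUnit 1) := by ring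
    _ = 1 := by rw [eS_pow_mul_invOfUnit, eS_pow_mul_invOfUnit, one_mul]

theorem constantCoeff_psi12 : constantCoeff psi12 = 1 := by
  unfold psi12
  rw [map_mul, map_pow, constantCoeff_eS, one_pow, one_mul]
  exact constantCoeff_invOfUnit_one (by rw [map_pow, constantCoeff_eS, one_pow])

theorem constantCoeff_psi12inv : constantCoeff psi12inv = 1 := by
  unfold psi12inv
  rw [map_mul, map_pow, constantCoeff_eS, one_pow, one_mul]
  exact constantCoeff_invOfUnit_one (by rw [map_pow, constantCoeff_eS, one_pow])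

theorem thD_psi12_delta : thD psi12 = - (psi12 * (C 12 * S16.deltaZ 3)) := by
  have hB := eS_pow_mul_invOfUnit 3 12
  have hA : psi12 * eS 3 ^ 12 = eS 1 ^ 12 := by
    unfold psi12
    calc eS 1 ^ 12 * (eS 3 ^ 12).invOfUnit 1 * eS 3 ^ 12
        = eS 1 ^ 12 * (eS 3 ^ 12 * (eS 3 ^ 12).invOfUnit 1) := by ring
      _ = eS 1 ^ 12 := by rw [hB, mul_one]
  have h1 := congrArg thD hA
  rw [thD_mul, thD_eS_pow 3 (by norm_num) 11, thD_eS_pow 1 (by norm_num) 11, psV_one, ← hA] at h1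
  have h2 : eS 3 ^ 12 * thD psi12 = eS 3 ^ 12 * - (psi12 * (C 12 * S16.deltaZ 3)) := by
    have e12 : (C (((11 : ℕ) : ℤ) + 1) : PowerSeries ℤ) = C 12 := by norm_num
    have e3 : (C ((3 : ℕ) : ℤ) : PowerSeries ℤ) = C 3 := by norm_num
    have e1 : (C ((1 : ℕ) : ℤ) : PowerSeries ℤ) = 1 := by simp
    rw [e12, e3, e1] at h1
    unfold S16.deltaZ
    rw [e3]
    linear_combination h1
  have h3 := congrArg (fun u => (eS 3 ^ 12).invOfUnit 1 * u) h2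
  simp only [← mul_assoc] at h3
  rw [mul_comm ((eS 3 ^ 12).invOfUnit 1) (eS 3 ^ 12), hB, one_mul, one_mul] at h3
  rw [h3]
  ring

/-- `E₃ = D h₃ / h₃ = 1 + 12 ∑ (σ₁(n) - 3 σ₁(n/3)) Tⁿ`. -/
def E3ser : PowerSeries ℤ := 1 + C 12 * S16.deltaZ 3

/-- `D t₃ = - t₃ E₃` in terms of `ψ = T t₃` (same shape as `S36.thD_psi8`, `G² ↦ E₃`). -/
theorem thD_psi12 : thD psi12 - psi12 = - (psi12 * E3ser) := by
  rw [thD_psi12_delta, E3ser]
  ring

/-- `E₃ ≡ 1 mod 12`. -/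
theorem E3ser_sub_one : E3ser - 1 = C 12 * S16.deltaZ 3 := by
  rw [E3ser]; ring

theorem two_dvd_coeff_E3ser_sub_one (n : ℕ) : (2 : ℤ) ∣ coeff n (E3ser - 1) := by
  rw [E3ser_sub_one, coeff_C_mul]
  exact Dvd.dvd.mul_right (by norm_num) _

theorem constantCoeff_E3ser : constantCoeff E3ser = 1 := by
  have h : constantCoeff (S16.deltaZ 3) = 0 := by
    rw [← coeff_zero_eq_constantCoeff_apply]
    unfold S16.deltaZ
    rw [map_sub, coeff_C_mul, S16.coeff_psV, S16.coeff_sigmaZ]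
    simp
  rw [E3ser, map_add, map_mul, h]
  simp

end Fermat.Agent.S45
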