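import Fermat.Agent.S45.Haupt.MainK
import Fermat.Agent.S45.Haupt3.DL

/-!
# S45 / [MODK-GEN1] : the `h₃`-instance (`q = 2`) of `S45/Haupt/MainK.lean`

`(u, v) = (t3Ser, h3Ser)`, `Du/u = - E₃`, `E₃ ≡ 1` in characteristic `2`.

* `redTo_sigma_h3_powK` : `σ (1 - x/y)^(2^(s-1)) / 2 ≡ 1` on the component where the two exponents coincide;
* `normalForm_sigma_h3K` : `σ (1 - x/y) = (1 - z) * unit`;
* `castLS_one_sub_h3_ne_zeroK` : `1 - h₃(T^a)/h₃(T^b) ≠ 0` in every characteristic, `a ≠ b`;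
* the elements `varpi3K L D₁ D₂ : FN L`, their expansion at `∞`, integrality, descent to `F0`.
-/

set_option autoImplicit false
set_option linter.unusedSectionVars false

open ModularCurve Fermat.Agent.S24 Fermat.Agent.S28 Fermat.Agent.RED.Gauss Fermat.Agent.S36

noncomputable section

namespace Fermat.Agent.S45

/-- the series `E₃` as a Laurent series -/
def e3S : LaurentSeries ℤ := HahnSeries.ofPowerSeries ℤ ℤ E3ser

theorem DL_t3Ser_mulK : DL t3Ser * h3Ser = -e3S := DL_t3Ser_mul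

theorem castLS_e3S_of_two {k : Type*} [CommRing k] (h2 : (2 : k) = 0) : castLS k e3S = 1 :=
  castLS_E3ser_of_two h2

theorem castLS_neg_e3S_of_two {k : Type*} [CommRing k] (h2 : (2 : k) = 0) :
    castLS k (-e3S) = 1 := by
  have h1 : castLS k (-e3S) = -castLS k e3S := by simp only [castLS, map_neg]
  rw [h1, castLS_e3S_of_two h2]
  have : (-1 : LaurentSeries k) = 1 - HahnSeries.C (2 : k) := by
    rw [map_ofNat]; ring
  rw [this, h2, map_zero, sub_zero]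

theorem castLS_qExpand_neg_e3S_of_two {k : Type*} [Field k] (h2 : (2 : k) = 0) (n : ℕ) [NeZero n] :
    castLS k (qExpand ℤ n (-e3S)) = 1 := by
  rw [castLS_qExpandK, castLS_neg_e3S_of_two h2, map_one]

/-- `1 - h₃(T^a)/h₃(T^b) ≠ 0` in every characteristic, `a ≠ b`. -/
theorem castLS_one_sub_h3_ne_zeroK {k : Type*} [Field k] (a b : ℕ) [NeZero a] [NeZero b]
    (hab : a ≠ b) : castLS k (1 - qExpand ℤ a h3Ser * qExpand ℤ b t3Ser) ≠ 0 := by
  have h1 : qExpand ℤ a h3Ser * qExpand ℤ b t3Ser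
      = monS ((a : ℤ) - b) (psi12inv.expand a (NeZero.ne _) * psi12.expand b (NeZero.ne _)) := by
    rw [h3Ser_eq, t3Ser_eq, qExpand_monS, qExpand_monS, monS_mul]
    congr 1
    ring
  rcases lt_or_gt_of_ne hab with h | h
  · refine castLS_ne_zero_of_coeff (n := (a : ℤ) - b) ?_
    have h2 : (a : ℤ) - b ≠ 0 := by
      have : (a : ℤ) < b := by exact_mod_cast h
      omega
    rw [h1, HahnSeries.coeff_sub, monS_coeff_self, map_mul, PowerSeries.constantCoeff_expand,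
      PowerSeries.constantCoeff_expand, constantCoeff_psi12, constantCoeff_psi12inv,
      HahnSeries.coeff_one, if_neg h2]
    norm_num
  · refine castLS_ne_zero_of_coeff (n := 0) ?_
    have h2 : (0 : ℤ) < (a : ℤ) - b := by
      have : (b : ℤ) < a := by exact_mod_cast h
      omega
    rw [h1, HahnSeries.coeff_sub, monS_coeff_of_lt _ _ h2, HahnSeries.coeff_one, if_pos rfl,
      sub_zero]
    exact isUnit_one

section Red3

variable {L : Type*} [Field L] [CharZero L] {A : ValuationSubring L} {k : Type*} [Field k]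
  {π : A →+* k} (hπ : IsResMap π) {F : Type*} [Field F] (σ : F →+* LaurentSeries L)
  (n : ℕ) [NeZero n] (ξ : Lˣ) {x y : F}
  (hv : A.valuation (1 - ((ξ ^ n : Lˣ) : L)) < 1)

include hπ hv in
/-- `h₃`-version, `q = 2` : `σ(1 - x/y)^(2^(s-1)) / 2 ≡ 1`. -/
theorem redTo_sigma_h3_powK (h2 : (2 : k) = 0) {s : ℕ} (hs : s ≠ 0)
    (hz : IsPrimitiveRoot (ξ ^ n) (2 ^ s))
    (hx : σ x = qExpand L n (castLS L h3Ser))
    (hy : σ y = rot ξ (qExpand L n (castLS L h3Ser))) :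
    RedTo π (σ (1 - x * y⁻¹) ^ (2 ^ (s - 1) * (2 - 1)) / HahnSeries.C ((2 : ℕ) : L)) 1 := by
  refine (redTo_sigma_powK hπ σ n ξ t3Ser_mul_h3Ser hx hy hv Nat.prime_two hs hz).congr rfl ?_
  rw [DL_t3Ser_mulK, castLS_qExpand_neg_e3S_of_two h2, one_pow]
  have : (-1 : LaurentSeries k) = 1 - HahnSeries.C (2 : k) := by
    rw [map_ofNat]; ring
  rw [this, h2, map_zero, sub_zero]

include hπ hv in
theorem normalForm_sigma_h3K (h2 : (2 : k) = 0) (hz1 : IsIntegral ℤ ((ξ ^ n : Lˣ) : L))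
    (hz2 : IsIntegral ℤ (((ξ ^ n)⁻¹ : Lˣ) : L))
    (hx : σ x = qExpand L n (castLS L h3Ser))
    (hy : σ y = rot ξ (qExpand L n (castLS L h3Ser))) :
    NormalForm π (1 - ((ξ ^ n : Lˣ) : L)) (σ (1 - x * y⁻¹)) 1 := by
  refine normalForm_sigmaK hπ σ n ξ t3Ser_mul_h3Ser hx hy hv hz1 hz2 ?_
  rw [DL_t3Ser_mulK, castLS_qExpand_neg_e3S_of_two h2]
  exact one_ne_zero

end Red3

/-! ### the elements -/

section Elements3

variable (L D₁ D₂ : ℕ) [NeZero L] [NeZero D₁] [NeZero D₂]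

/-- `1 - h₃(D₁ τ)/h₃(D₂ τ)`. -/
def varpi3K (h₁ : 3 * D₁ ∣ L) (h₂ : 3 * D₂ ∣ L) : FN L := 1 - h3FD D₁ L h₁ * (h3FD D₂ L h₂)⁻¹

theorem isIntegral_varpi3K (h₁ : 3 * D₁ ∣ L) (h₂ : 3 * D₂ ∣ L) :
    IsIntegral (Algebra.adjoin Kb {jF L}) (varpi3K L D₁ D₂ h₁ h₂) :=
  isIntegral_one_sub_mul_abs (jF L) (isIntegral_h3FD _ _ _) (isIntegral_h3FD_inv _ _ _)

/-- the expansion of `varpi3K` at `∞`. -/
theorem coe_varpi3K (h₁ : 3 * D₁ ∣ L) (h₂ : 3 * D₂ ∣ L) :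
    (varpi3K L D₁ D₂ h₁ h₂ : LaurentSeries Kb)
      = castLS Kb (1 - qExpand ℤ D₁ h3Ser * qExpand ℤ D₂ t3Ser) := by
  have h1 : ((1 - h3FD D₁ L h₁ * (h3FD D₂ L h₂)⁻¹ : FN L) : LaurentSeries Kb)
      = 1 - (h3FD D₁ L h₁ : LaurentSeries Kb) * (((h3FD D₂ L h₂)⁻¹ : FN L) : LaurentSeries Kb) := rfl
  rw [varpi3K, h1, coe_h3FD_inv, coe_h3FD]
  simp only [castLS, map_sub, map_one, map_mul, coeffMap_qExpand]

theorem exists_varpi3K0 (A : ValuationSubring Kb) (h₁ : 3 * D₁ ∣ L) (h₂ : 3 * D₂ ∣ L) :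
    ∃ y : F0 A L, embF0 A L y = varpi3K L D₁ D₂ h₁ h₂ :=
  exists_embF0_eq A _ _ (by rw [coe_varpi3K]; exact castLS_coeff_mem_K0 A _)

/-- `1 - h₃(D₁ τ)/h₃(D₂ τ)` over `K0 A`. -/
def varpi3K0 (A : ValuationSubring Kb) (h₁ : 3 * D₁ ∣ L) (h₂ : 3 * D₂ ∣ L) : F0 A L :=
  (exists_varpi3K0 L D₁ D₂ A h₁ h₂).choose

theorem embF0_varpi3K0 (A : ValuationSubring Kb) (h₁ : 3 * D₁ ∣ L) (h₂ : 3 * D₂ ∣ L) :
    embF0 A L (varpi3K0 L D₁ D₂ A h₁ h₂) = varpi3K L D₁ D₂ h₁ h₂ :=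
  (exists_varpi3K0 L D₁ D₂ A h₁ h₂).choose_spec

end Elements3

end Fermat.Agent.S45
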