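import Fermat.Agent.S45.Haupt3.THol
import Fermat.Agent.S45.Haupt3.Formal
import Fermat.Agent.S36.Haupt.TElem

/-!
# S45 / [MODK-Q2] : `h₃(dτ)`, `h₃ = (η(3τ)/η(τ))^12`, as an element of the function field of `X₀(N)`,
`3 d ∣ N`
-/

set_option autoImplicit false
set_option linter.unusedSectionVars false

open Complex Function Filter ModularForm ModularCurve
open UpperHalfPlane hiding I
open scoped Real MatrixGroups Manifold Topology
open Fermat.Agent.S24 Fermat.Agent.S28 Fermat.Agent.S36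

noncomputable section

namespace Fermat.Agent.S45

local notation "𝕢" => Periodic.qParam

/-- the formal expansion of `h`. -/
def h3Ser : LaurentSeries ℤ := HahnSeries.ofPowerSeries ℤ ℤ (PowerSeries.X * psi12inv)

/-- the formal expansion of `t = 1/h`. -/
def t3Ser : LaurentSeries ℤ := HahnSeries.single (-1) 1 * HahnSeries.ofPowerSeries ℤ ℤ psi12

theorem t3Ser_mul_h3Ser : t3Ser * h3Ser = 1 := by
  rw [t3Ser, h3Ser, map_mul, HahnSeries.ofPowerSeries_X]
  calc HahnSeries.single (-1 : ℤ) (1 : ℤ) * HahnSeries.ofPowerSeries ℤ ℤ psi12 *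
        (HahnSeries.single 1 1 * HahnSeries.ofPowerSeries ℤ ℤ psi12inv)
      = (HahnSeries.single (-1 : ℤ) (1 : ℤ) * HahnSeries.single 1 1) *
        HahnSeries.ofPowerSeries ℤ ℤ (psi12 * psi12inv) := by rw [map_mul]; ring
    _ = 1 := by
        rw [psi12_mul_inv, (HahnSeries.ofPowerSeries ℤ ℤ).map_one, mul_one,
          HahnSeries.single_mul_single]
        simp

theorem tay_phiH3 : tay phiH3 = (PowerSeries.X * psi12inv).map (Int.castRingHom ℂ) := by
  have a1 := analyticAt_of_diffOn diffOn_eulerP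
  have a3 := analyticAt_of_diffOn (diffOn_comp_pow diffOn_eulerP (d := 3) (by norm_num))
  have aid : AnalyticAt ℂ (fun q : ℂ => q) 0 := analyticAt_id
  have key : tay (phiH3 * eulerP ^ 12) = tay ((fun q : ℂ => q) * (fun q => eulerP (q ^ 3)) ^ 12) := by
    apply tay_congr
    filter_upwards [Metric.ball_mem_nhds (0 : ℂ) one_pos] with q hq
    have h1 := eulerP_ne_zero hq
    simp only [Pi.mul_apply, Pi.pow_apply, phiH3]
    field_simp
  rw [tay_mul (analyticAt_of_diffOn diffOn_phiH3) (a1.pow 12), tay_mul aid (a3.pow 12), tay_pow a1,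
    tay_pow a3, tay_id, tay_eulerP_one, tay_eulerP_pow 3 (by norm_num)] at key
  have hc : PowerSeries.constantCoeff (eS 1 ^ 12) = 1 := by simp [constantCoeff_eS]
  have hne := map_ne_zero_of_const hc
  apply mul_right_cancel₀ hne
  rw [map_pow, key, psi12inv, ← map_pow, ← map_pow, map_mul, map_mul, PowerSeries.map_X, mul_assoc,
    mul_assoc, ← map_mul, mul_comm ((eS 1 ^ 12).invOfUnit 1),
    PowerSeries.mul_invOfUnit _ 1 (by rw [hc]; rfl), map_one, mul_one]

theorem ofPowerSeries_qExpansion_phiH3 :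
    HahnSeries.ofPowerSeries ℤ ℂ (qExpansion 1 (ofDisc phiH3)) = castLS ℂ h3Ser := by
  rw [qExpansion_ofDisc (continuousAt_of_diffOn diffOn_phiH3), tay_phiH3, h3Ser]
  exact (coeffMap_ofPowerSeries _ _).symm

variable (d : ℕ) [NeZero d]

theorem ofDisc_phiH_scal_mem : ofDisc phiH3 ∘ scal d ∈ HolPer 1 := by
  have h := ofDisc_mem_HolPer diffOn_phiH3
  exact ⟨mdiff_comp_scal d h.1, by simpa using periodic_comp_scal d (by simpa using h.2.1),
    isBoundedAtImInfty_comp_scal d h.2.2⟩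

/-- `h(dτ)` as an element of `HolPer 1`. -/
def h3PerD : HolPer 1 := ⟨ofDisc phiH3 ∘ scal d, ofDisc_phiH_scal_mem d⟩

theorem inclHol_h3PerD : inclHol 1 (h3PerD d) = h3HolD d := by
  apply Subtype.ext
  funext τ
  show ofDisc phiH3 (scal d τ) = H3 (scal d τ)
  rw [H3_eq_phiH3]; rfl

theorem toMer_h3PerD :
    toMer 1 (algebraMap (HolPer 1) (MerPer 1) (h3PerD d)) = algebraMap Hol Mer (h3HolD d) := by
  rw [toMer_algebraMap, inclHol_h3PerD]

theorem toLaurent_h3PerD :
    toLaurent 1 (algebraMap (HolPer 1) (MerPer 1) (h3PerD d))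
      = coeffMap iotaK.toRingHom (qExpand Kb d (castLS Kb h3Ser)) := by
  rw [toLaurent_algebraMap]
  have h := ofDisc_mem_HolPer diffOn_phiH3
  have h1 := ofPowerSeries_qExpansion_comp_scal d (f := ofDisc phiH3) (by simpa using h.2.1) h.1
    h.2.2
  rw [ofPowerSeries_qExpansion_phiH3] at h1
  rw [coeffMap_qExpand, coeffMap_iotaK_castLS, ← h1]
  simp [h3PerD]

variable (N : ℕ) [NeZero N] (hd : 3 * d ∣ N)

include hd in
theorem qExpand_h3Ser_mem : qExpand Kb d (castLS Kb h3Ser) ∈ modularFunctionFieldBar N :=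
  RED.mem_bar_of_mem_RN N (h3HolD d) (h3HolD_mem_RN hd) _ (toMer_h3PerD d) _ (toLaurent_h3PerD d)

/-- `h(dτ)` as an element of the function field of `X₀(N)`. -/
def h3FD : FN N := ⟨qExpand Kb d (castLS Kb h3Ser), qExpand_h3Ser_mem d N hd⟩

@[simp] theorem coe_h3FD : (h3FD d N hd : LaurentSeries Kb) = qExpand Kb d (castLS Kb h3Ser) := rfl

theorem ThetaMer_h3FD : ThetaMer N (h3FD d N hd) = algebraMap Hol Mer (h3HolD d) :=
  RED.ThetaMer_eq_of_mem_RN N (h3HolD d) (h3HolD_mem_RN hd) _ (toMer_h3PerD d) _ (toLaurent_h3PerD d)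

theorem castLS_t3Ser_mul : castLS Kb t3Ser * castLS Kb h3Ser = 1 := by
  rw [← map_mul, t3Ser_mul_h3Ser, map_one]

theorem qExpand_t3Ser_mul :
    qExpand Kb d (castLS Kb t3Ser) * qExpand Kb d (castLS Kb h3Ser) = 1 := by
  rw [← map_mul, castLS_t3Ser_mul, map_one]

theorem coe_h3FD_inv :
    (((h3FD d N hd)⁻¹ : FN N) : LaurentSeries Kb) = qExpand Kb d (castLS Kb t3Ser) := by
  have h1 : (((h3FD d N hd)⁻¹ : FN N) : LaurentSeries Kb) = (qExpand Kb d (castLS Kb h3Ser))⁻¹ := rfl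
  rw [h1]
  exact (eq_inv_of_mul_eq_one_left (qExpand_t3Ser_mul d)).symm

theorem h3FD_ne_zero : h3FD d N hd ≠ 0 := by
  intro h
  have h1 := congrArg (fun x : FN N => (x : LaurentSeries Kb)) h
  simp only [coe_h3FD] at h1
  have h2 := qExpand_t3Ser_mul d
  rw [h1] at h2
  simp at h2

theorem ThetaMer_h3FD_inv : ThetaMer N (h3FD d N hd)⁻¹ = algebraMap Hol Mer (t3HolD d) := by
  rw [map_inv₀, ThetaMer_h3FD]
  apply inv_eq_of_mul_eq_one_right
  rw [← map_mul, h3HolD_mul_t3HolD, map_one]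

theorem isIntegral_h3FD : IsIntegral (Algebra.adjoin Kb {jF N}) (h3FD d N hd) :=
  isIntegral_of_mem_RN N _ (h3HolD d) (h3HolD_mem_RN hd) (ThetaMer_h3FD d N hd)

theorem isIntegral_h3FD_inv : IsIntegral (Algebra.adjoin Kb {jF N}) (h3FD d N hd)⁻¹ :=
  isIntegral_of_mem_RN N _ (t3HolD d) (t3HolD_mem_RN hd) (ThetaMer_h3FD_inv d N hd)

/-- `h` as an element of the function field of `X₀(M)`, `3 ∣ M`. -/
def h3F (M : ℕ) [NeZero M] (h3 : 3 ∣ M) : FN M := h3FD 1 M (by simpa using h3)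

@[simp] theorem coe_h3F (M : ℕ) [NeZero M] (h3 : 3 ∣ M) :
    (h3F M h3 : LaurentSeries Kb) = castLS Kb h3Ser := by
  rw [h3F, coe_h3FD, qExpand_one_apply]

end Fermat.Agent.S45
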