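import Fermat.Agent.S45.Haupt3.TFun
import Fermat.Agent.S36.Theta.Ratio

/-!
# S45 / [MODK-Q2] : `h₃(dτ)` and `1/h₃(dτ)` as elements of `RN N` (`3 d ∣ N`)
-/

set_option autoImplicit false
set_option linter.unusedSectionVars false

open Complex Function Filter ModularForm Matrix.SpecialLinearGroup CongruenceSubgroup
open UpperHalfPlane hiding I
open scoped Real MatrixGroups Manifold Topology
open Fermat.Agent.S24 Fermat.Agent.S24.CPAlt Fermat.Agent.S36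

noncomputable section

namespace Fermat.Agent.S45

local notation "𝕢" => Periodic.qParam
local notation "Δ" => ModularForm.discriminant

/-- raw form of the invariance of `h`. -/
theorem H3_automorphy (a b c d : ℤ) (hdet : a * d - b * c = 1) (hc : (3 : ℤ) ∣ c) {z : ℂ}
    (hz : 0 < z.im) : H3 (((a : ℂ) * z + b) / ((c : ℂ) * z + d)) = H3 z := by
  let g : SL(2, ℤ) := ⟨!![a, b; c, d], by rw [Matrix.det_fin_two_of]; exact hdet⟩
  have := H3_smul g (show (3 : ℤ) ∣ c from hc) ⟨z, hz⟩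
  rw [coe_smul_eq g] at this
  simpa [cd, g] using this

theorem mdiff_H3 : MDiff (fun τ : ℍ => H3 τ) := by
  have := mdiff_ofDisc diffOn_phiH3
  have e : (fun τ : ℍ => H3 τ) = ofDisc phiH3 := by
    funext τ
    rw [H3_eq_phiH3]; rfl
  rw [e]; exact this

variable (d : ℕ) [NeZero d]

/-- `τ ↦ h(dτ)`. -/
def h3D (τ : ℍ) : ℂ := H3 (scal d τ)

theorem h3D_ne_zero (τ : ℍ) : h3D d τ ≠ 0 := H3_ne_zero (scal d τ).im_pos

theorem mdiff_h3D : MDiff (h3D d) := mdiff_comp_scal d mdiff_H3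

theorem h3D_smul (γ : SL(2, ℤ)) (hγ : ((3 * d : ℕ) : ℤ) ∣ γ 1 0) (τ : ℍ) :
    h3D d (γ • τ) = h3D d τ := by
  obtain ⟨c', hc'⟩ := hγ
  have hd0 : (d : ℂ) ≠ 0 := by exact_mod_cast NeZero.ne d
  have hdet := sl2_det γ
  have h := H3_automorphy (γ 0 0) (γ 0 1 * d) (3 * c') (γ 1 1) (by
    rw [hc'] at hdet
    push_cast at hdet
    linear_combination hdet) (Dvd.intro _ rfl) (scal d τ).im_pos
  have hcd : cd γ τ = (((3 * c' : ℤ)) : ℂ) * ((scal d τ : ℍ) : ℂ) + (γ 1 1 : ℂ) := by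
    rw [cd, hc', coe_scal]
    push_cast
    ring
  rw [h3D, h3D, ← h]
  congr 1
  rw [← hcd, coe_scal, coe_smul_eq, coe_scal]
  push_cast
  field_simp

theorem h3D_pow_two (τ : ℍ) : h3D d τ ^ 2 = (S28.Unit.W (3 * d) / S28.Unit.W d) τ := by
  rw [h3D, H3_pow_two, W_scal]
  rfl

/-- `h(dτ)` as a holomorphic function. -/
def h3HolD : Hol := ⟨h3D d, mdiff_h3D d⟩

/-- `1/h(dτ)` as a holomorphic function. -/
def t3HolD : Hol := ⟨fun τ : ℍ => (h3D d τ)⁻¹, S28.mdiff_inv (mdiff_h3D d) (h3D_ne_zero d)⟩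

theorem h3HolD_apply (τ : ℍ) : (h3HolD d : ℍ → ℂ) τ = h3D d τ := rfl

theorem t3HolD_apply (τ : ℍ) : (t3HolD d : ℍ → ℂ) τ = (h3D d τ)⁻¹ := rfl

theorem h3HolD_mul_t3HolD : h3HolD d * t3HolD d = 1 := by
  apply Subtype.ext
  funext τ
  exact mul_inv_cancel₀ (h3D_ne_zero d τ)

variable {d} {N : ℕ} [NeZero N]

theorem allU_quot3 (hd : 3 * d ∣ N) : AllU N (S28.Unit.W (3 * d) / S28.Unit.W d) :=
  (allU_W hd).div (allU_W ((Dvd.intro_left 3 rfl).trans hd))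

theorem h3HolD_mem_RN (hd : 3 * d ∣ N) : h3HolD d ∈ RN N := by
  refine ⟨fun γ hγ => ?_, fun g => ?_⟩
  · apply Subtype.ext
    funext τ
    rw [actHol_apply]
    exact h3D_smul d γ⁻¹ ((Int.natCast_dvd_natCast.mpr hd).trans
      (int_dvd_of_mem_Gamma0 (inv_mem hγ))) τ
  · show ModG ((actHol g (h3HolD d) : Hol) : ℍ → ℂ)
    apply modG_of_pow (k := 2) (by norm_num)
    have e : (fun τ => ((actHol g (h3HolD d) : Hol) : ℍ → ℂ) τ ^ 2)
        = fun τ => (S28.Unit.W (3 * d) / S28.Unit.W d) (g⁻¹ • τ) := by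
      funext τ
      rw [actHol_apply, h3HolD_apply, h3D_pow_two]
    rw [e]
    exact modG_of_isU (allU_quot3 hd g⁻¹)

theorem t3HolD_mem_RN (hd : 3 * d ∣ N) : t3HolD d ∈ RN N := by
  refine ⟨fun γ hγ => ?_, fun g => ?_⟩
  · apply Subtype.ext
    funext τ
    rw [actHol_apply, t3HolD_apply, t3HolD_apply]
    rw [h3D_smul d γ⁻¹ ((Int.natCast_dvd_natCast.mpr hd).trans
      (int_dvd_of_mem_Gamma0 (inv_mem hγ))) τ]
  · show ModG ((actHol g (t3HolD d) : Hol) : ℍ → ℂ)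
    apply modG_of_pow (k := 2) (by norm_num)
    have e : (fun τ => ((actHol g (t3HolD d) : Hol) : ℍ → ℂ) τ ^ 2)
        = fun τ => (S28.Unit.W (3 * d) / S28.Unit.W d)⁻¹ (g⁻¹ • τ) := by
      funext τ
      rw [actHol_apply, t3HolD_apply, inv_pow, h3D_pow_two]
      rfl
    rw [e]
    exact modG_of_isU ((allU_quot3 hd).inv g⁻¹)

end Fermat.Agent.S45
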